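import Mathlib.FieldTheory.IsAlgClosed.Classification
import Mathlib.Algebra.MvPolynomial.Cardinal
import Mathlib.RingTheory.Localization.Cardinality
import Mathlib.Analysis.Complex.Cardinality
import Mathlib.Analysis.Complex.Polynomial.Basic
import Mathlib.FieldTheory.IntermediateField.Adjoin.Basic
import Mathlib.FieldTheory.IsAlgClosed.AlgebraicClosure

/-!
# Countably many elements of a field of characteristic zero may be read in `ℂ`

`exists_subfield_toComplex`: they lie in a countable subfield, which embeds into `ℂ`.  Used to
apply the theory of complex newforms to eigensymbols over other fields.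
-/

set_option autoImplicit false

noncomputable section

open Cardinal

namespace FLTAgent.LevelLowering

/-- A countable field of characteristic zero embeds into `ℂ`. -/
theorem nonempty_ringHom_complex (F : Type) [Field F] [CharZero F] [Countable F] :
    Nonempty (F →+* ℂ) := by
  let P := MvPolynomial ℝ F
  let K := AlgebraicClosure (FractionRing P)
  have : CharZero K := charZero_of_injective_algebraMap (algebraMap F K).injective
  have hP : #P = 𝔠 := by
    rw [MvPolynomial.cardinalMk_eq_max, mk_real,
      max_eq_right ((mk_le_aleph0).trans aleph0_le_continuum), max_eq_left aleph0_le_continuum]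
  have hK : #K = 𝔠 := by
    refine le_antisymm ?_ ?_
    · refine (Algebra.IsAlgebraic.cardinalMk_le_max (FractionRing P) K).trans ?_
      rw [mk_fractionRing, hP, max_eq_left aleph0_le_continuum]
    · rw [← hP, ← mk_fractionRing P]
      exact mk_le_of_injective (algebraMap (FractionRing P) K).injective
  obtain ⟨e⟩ := IsAlgClosed.ringEquiv_of_equiv_of_charZero (K := K) (L := ℂ)
    (hK ▸ aleph0_lt_continuum) (Cardinal.eq.mp (hK.trans mk_complex.symm))
  exact ⟨e.toRingHom.comp (algebraMap F K)⟩

/-- Countably many elements of a field of characteristic zero lie in a subfield mapping to `ℂ`. -/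
theorem exists_subfield_toComplex {K : Type} [Field K] [CharZero K] (s : Set K) (hs : s.Countable) :
    ∃ F : Subfield K, s ⊆ F ∧ Nonempty (F →+* ℂ) := by
  refine ⟨Subfield.closure s, Subfield.subset_closure, ?_⟩
  have : Countable (Subfield.closure s) := by
    rw [← mk_le_aleph0_iff]
    exact (Subfield.cardinalMk_closure_le_max s).trans
      (max_le (hs.le_aleph0) le_rfl)
  exact nonempty_ringHom_complex _

end FLTAgent.LevelLowering
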