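import Fermat.Agent.LevelLowering.Twist.Operators
import Fermat.Agent.ModularityLifting.Points.TwistMulti

/-!
# Twisting eigensymbols, keeping track of one more prime

At a prime `r` outside the twisting primes the eigenvalue of `U_r` is multiplied by the inverse
characters (`exists_twist_uOp`); at one of the twisting primes the twisted symbol is killed by
`U_r` and by the trace (`exists_twist_site`).  Used for the newforms of points.
-/

set_option autoImplicit false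

noncomputable section

namespace FLTAgent.LevelLowering

open FLTAgent.LevelRaising FLTAgent.ModularityLifting FLTAgent.HeckePoints

variable {K : Type} [Field K] [IsAlgClosed K] [CharZero K]

omit [IsAlgClosed K] in
/-- Twisting multiplies the eigenvalue of `U_r`, `r` outside the twisting primes, by the inverse
characters. -/
theorem exists_twist_uOp {r : ℕ} (hr : r.Prime) (T : Finset ℕ) (hT : ∀ t ∈ T, t.Prime)
    (hrT : r ∉ T) (χ : ∀ t, DirichletCharacter K t) (hχ : ∀ t ∈ T, χ t ^ 2 ≠ 1) (M : ℕ)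
    (hM0 : M ≠ 0) (hM : ∀ t ∈ T, ¬ t ∣ M) {L L' : ℕ} (hL : L = M * ∏ t ∈ T, t)
    (hL' : L' = M * ∏ t ∈ T, t ^ 2) (δ' : DirichletCharacter K M) (δ : DirichletCharacter K L)
    (δ₂ : DirichletCharacter K L')
    (hδ : ∀ d : ℤ, IsUnit (d : ZMod L) →
      δ (d : ZMod L) = δ' (d : ZMod M) * ∏ t ∈ T, χ t (d : ZMod t) ^ 2)
    (hδ₂ : ∀ d : ℤ, IsUnit (d : ZMod L') → δ₂ (d : ZMod L') = δ' (d : ZMod M))
    (S : Finset ℕ) (hS : ∀ l, l.Prime → l ∣ L → l ∈ S) (a : ℕ → K) (ε : K)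
    (Φ : Cusp → Cusp → K) (hΦ : Φ ∈ SymbChar K δ) (hne : Φ ≠ 0)
    (ha : ∀ l, l.Prime → l ∉ S → tOpChar K δ l Φ = a l • Φ) (hε : uOp K r Φ = ε • Φ) :
    ∃ Ψ ∈ SymbChar K δ₂, Ψ ≠ 0 ∧ (∀ l, l.Prime → l ∉ S →
        tOpChar K δ₂ l Ψ = ((∏ t ∈ T, (χ t)⁻¹ (l : ZMod t)) * a l) • Ψ) ∧
      uOp K r Ψ = ((∏ t ∈ T, (χ t)⁻¹ (r : ZMod t)) * ε) • Ψ := by
  subst hL hL'
  obtain ⟨e1, e2⟩ := symbChar_congr rfl δ₂
    (DirichletCharacter.changeLevel (dvd_mul_right M (∏ t ∈ T, t ^ 2)) δ') fun d hd => by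
      rw [hδ₂ d hd, changeLevel_intCast _ _ _ hd]
  obtain ⟨F, hF1, hF2, hF3, hF4⟩ := exists_twistMap T hT χ hχ M hM0 hM δ' δ hδ
  refine ⟨F Φ, e1 ▸ hF1 Φ hΦ, fun h => hne (hF2 Φ hΦ h), fun l hl hlS => ?_, ?_⟩
  · rw [e2, hF3 l hl (fun h => hlS (hS l hl h)) Φ hΦ, ha l hl hlS, map_smul, smul_smul]
  · rw [hF4 r hr (fun t ht h => hrT (h ▸ ht)) Φ hΦ, hε, map_smul, smul_smul]

/-- A twist of trivial character, at a twisting prime `r`: killed by `U_r` and by the trace. -/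
theorem exists_twist_site (T : Finset ℕ) (hT : ∀ t ∈ T, t.Prime)
    (χ : ∀ t, DirichletCharacter K t) (hχ : ∀ t ∈ T, χ t ^ 2 ≠ 1) {M : ℕ} (hM0 : M ≠ 0)
    (hM : ∀ t ∈ T, ¬ t ∣ M) {r : ℕ} (hrT : r ∈ T) {L : ℕ} (hL : L = M * ∏ t ∈ T, t)
    {N : ℕ} (hN : N = M * ∏ t ∈ T.erase r, t ^ 2) (δ : DirichletCharacter K L)
    (hδ : ∀ d : ℤ, IsUnit (d : ZMod L) → δ (d : ZMod L) = ∏ t ∈ T, χ t (d : ZMod t) ^ 2)
    (S : Finset ℕ) (hS : ∀ l, l.Prime → l ∣ L → l ∈ S) (a : ℕ → K) {Φ : Cusp → Cusp → K}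
    (hΦ : Φ ∈ SymbChar K δ) (hne : Φ ≠ 0)
    (ha : ∀ l, l.Prime → l ∉ S → tOpChar K δ l Φ = a l • Φ) :
    ∃ Ψ ∈ Lev K (N * r ^ 2), Ψ ≠ 0 ∧ uOp K r Ψ = 0 ∧
      ∑ j : Fin r, pull K (ofMat !![1, 0; ((N * r * (j : ℕ) : ℕ) : ℤ), 1]) Ψ = 0 ∧
      ∀ l, l.Prime → l ∉ S → tOp K l Ψ = ((∏ t ∈ T, (χ t)⁻¹ (l : ZMod t)) * a l) • Ψ := by
  classical
  have hr : r.Prime := hT r hrT
  set T' := T.erase r with hT'def
  have hT' : ∀ t ∈ T', t.Prime := fun t ht => hT t (Finset.mem_of_mem_erase ht)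
  have hins : T = insert r T' := (Finset.insert_erase hrT).symm
  have hrT' : r ∉ T' := Finset.notMem_erase r T
  have hL1 : L = M * r * ∏ t ∈ T', t := by
    rw [hL, hins, Finset.prod_insert hrT']; ring
  have hM' : ∀ t ∈ T', ¬ t ∣ M * r := fun t ht h =>
    ((hT' t ht).dvd_mul.mp h).elim (hM t (Finset.mem_of_mem_erase ht))
      fun h => hrT' ((Nat.prime_dvd_prime_iff_eq (hT' t ht) hr).mp h ▸ ht)
  set δ' : DirichletCharacter K (M * r) :=
    DirichletCharacter.changeLevel (dvd_mul_left r M) (χ r ^ 2)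
  obtain ⟨eS, eT⟩ := symbChar_congr hL1 δ
    (DirichletCharacter.changeLevel (hL1 ▸ dvd_refl L) δ) fun d hd => by
      rw [changeLevel_intCast _ _ _ (isUnit_of_dvd hL1.symm.dvd hd)]
  obtain ⟨Φ₁, h1, hne1, ha1⟩ := exists_twist T' hT' χ
    (fun t ht => hχ t (Finset.mem_of_mem_erase ht))
    (M * r) (mul_ne_zero hM0 hr.ne_zero) hM' δ' _ (fun d hd => by
      rw [changeLevel_intCast _ _ _ hd, hδ d (isUnit_of_dvd hL1.dvd hd),
        changeLevel_intCast _ _ _ (isUnit_of_dvd (dvd_mul_right _ _) hd),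
        MulChar.pow_apply' _ two_ne_zero, hins, Finset.prod_insert hrT'])
    S (fun l hl h => hS l hl (hL1 ▸ h)) a Φ (eS ▸ hΦ) hne
    (fun l hl hlS => by rw [← eT]; exact ha l hl hlS)
  have hN0 : N ≠ 0 := by
    rw [hN]
    exact mul_ne_zero hM0 (Finset.prod_ne_zero_iff.mpr fun t ht => pow_ne_zero _ (hT' t ht).ne_zero)
  have hrN : ¬ r ∣ N := by
    rw [hN]
    intro h
    rcases hr.dvd_mul.mp h with h | h
    · exact hM r hrT h
    · obtain ⟨t, ht, htr⟩ := hr.prime.exists_mem_finset_dvd h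
      exact hrT' ((Nat.prime_dvd_prime_iff_eq hr (hT' t ht)).mp (hr.dvd_of_dvd_pow htr) ▸ ht)
  have hL2 : M * r * ∏ t ∈ T', t ^ 2 = N * r := by rw [hN]; ring
  obtain ⟨f1, f2⟩ := symbChar_congr hL2
    (DirichletCharacter.changeLevel (dvd_mul_right (M * r) (∏ t ∈ T', t ^ 2)) δ')
    (twistChar (χ r) (1 : DirichletCharacter K N)) fun d hd => by
      have hd' : IsUnit (d : ZMod (N * r)) := isUnit_of_dvd hL2.symm.dvd hd
      have hd1 := isUnit_of_dvd (dvd_mul_right (M * r) (∏ t ∈ T', t ^ 2)) hd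
      rw [changeLevel_intCast _ _ _ hd, changeLevel_intCast _ _ _ hd1,
        twistChar_intCast _ _ hd', MulChar.one_apply (isUnit_of_dvd (dvd_mul_right N r) hd'),
        one_mul, MulChar.pow_apply' _ two_ne_zero]
  rw [f1] at h1
  have : NeZero (N * r) := ⟨mul_ne_zero hN0 hr.ne_zero⟩
  have hSN : ∀ l, l.Prime → l ∣ N * r → l ∈ S := fun l hl h => by
    refine hS l hl ?_
    rw [hL1]
    rcases hl.dvd_mul.mp (hL2 ▸ h) with h | h
    · exact h.mul_right _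
    · obtain ⟨t, ht, hlt⟩ := hl.prime.exists_mem_finset_dvd h
      exact ((hl.dvd_of_dvd_pow hlt).trans (Finset.dvd_prod_of_mem _ ht)).mul_left _
  obtain ⟨Φ₂, h2, hne2, ha2, b, hb⟩ := exists_uOp_eigen hr (dvd_mul_left r N) S hSN
    (fun l => (∏ t ∈ T', (χ t)⁻¹ (l : ZMod t)) * a l) h1 hne1
    (fun l hl hlS => by rw [← f2]; exact ha1 l hl hlS)
  obtain ⟨hmem, hT2, hinj⟩ :=
    twistOp_spec_gen hr hrN (χ r) (hχ r hrT) (1 : DirichletCharacter K N) Φ₂ h2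
  have hχ1 : χ r ≠ 1 := fun h => hχ r hrT (by rw [h, one_pow])
  refine ⟨twistOp K (χ r) Φ₂, by rwa [map_one, symbChar_eq_lev] at hmem,
    fun h => hne2 (hinj b hb h), uOp_twistOp_self (χ r) 1 hr hχ1 h2,
    sum_pull_lower_twistOp (χ r) 1 hr hχ1 hrN h2, fun l hl hlS => ?_⟩
  have hl' : ¬ l ∣ N * r ^ 2 := fun h => hlS (hSN l hl (by
    rcases hl.dvd_mul.mp h with h | h
    · exact h.mul_right _
    · exact (hl.dvd_of_dvd_pow h).mul_left _))
  have h3 := hT2 l hl fun h => hlS (hSN l hl h)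
  rw [map_one, tOpChar_one hl hl', ha2 l hl hlS, map_smul, smul_smul] at h3
  rw [h3, hins, Finset.prod_insert hrT']
  congr 1
  ring

end FLTAgent.LevelLowering
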