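import Fermat.Agent.LevelLowering.Twist.Complex
import Fermat.Agent.ModularityLifting.NewformOfSymb
import Fermat.Agent.ModularityLifting.NewformSqOfSymb
import Fermat.Agent.ModularityLifting.Points.Galois
import Fermat.Agent.Eigenforms.Bound
import Fermat.Agent.Eigenforms.Character

/-!
# Newforms of eigensymbols with values in a field of characteristic zero

An eigensymbol with `U_q ^ 2 = 1` is killed by both traces, since `± (q + 1)` is not an eigenvalue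
of `T_q` on cusp forms.  Symbols with values in a field of characteristic zero are read in `ℂ`
through a countable subfield; this gives the newforms of `exists_newform_of_uOp_sq`,
`exists_newform_of_sq_ker` and `exists_newform_of_eigensymbol`.
-/

set_option autoImplicit false

noncomputable section

namespace FLTAgent.LevelLowering

open FLTAgent.LevelRaising FLTAgent.ModularityLifting CongruenceSubgroup ModularFormClass
open scoped MatrixGroups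

/-- An eigensymbol gives an eigenform of the same level. -/
theorem exists_eigenform_of_symb {L : ℕ} [NeZero L] (S : Finset ℕ)
    (hS : ∀ l, l.Prime → l ∣ L → l ∈ S) (a : ℕ → ℂ) {Φ : Cusp → Cusp → ℂ} (hΦ : Φ ∈ Lev ℂ L)
    (hne : Φ ≠ 0) (ha : ∀ l, l.Prime → l ∉ S → tOp ℂ l Φ = a l • Φ)
    (hneis : ∃ ℓ, ℓ.Prime ∧ ℓ ∉ S ∧ ℓ % L = 1 % L ∧ a ℓ ≠ 1 + ℓ) :
    ∃ f : CuspForm (Gamma0 L) 2, f.IsNormalizedEigenform ∧
      ∀ l, l.Prime → l ∉ S → qCoeff f l = a l := by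
  obtain ⟨θ, hθ⟩ := HeckePoints.exists_heckeChar (C := ℂ) (RingHom.id ℂ) Function.injective_id
    S hS a hΦ hne ha (fun l _ _ => ⟨a l, rfl⟩) hneis
  obtain ⟨f, hf, rfl⟩ := Eigenforms.exists_eigenform_of_char (MFIntegral.hasIntegralStructure L 2) θ
  refine ⟨f, hf, fun l hl hlS => ?_⟩
  have hlL : ¬ l ∣ L := fun h => hlS (hS l hl h)
  have h := hθ l hl hlL (fun h => hlS (Finset.mem_coe.mp h))
  rw [RingHom.id_apply, Eigenforms.eigenChar_T] at h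
  exact h

/-- An eigensymbol with `U_q ^ 2 = 1` lies in the kernels of both traces. -/
theorem ker_trace_of_uOp_sq {N q : ℕ} [NeZero N] (hq : q.Prime) (hqN : ¬ q ∣ N)
    (D : LevelRaising.ALData N q) {Φ : Cusp → Cusp → ℂ} (hΦ : Φ ∈ Lev ℂ (N * q)) (S : Finset ℕ)
    (hS : ∀ l, l.Prime → l ∣ N * q → l ∈ S) (a : ℕ → ℂ) {ε : ℂ}
    (ha : ∀ l, l.Prime → l ∉ S → tOp ℂ l Φ = a l • Φ) (hε : uOp ℂ q Φ = ε • Φ) (hε2 : ε ^ 2 = 1)
    (hneis : ∃ ℓ, ℓ.Prime ∧ ℓ ∉ S ∧ ℓ % (N * q) = 1 % (N * q) ∧ a ℓ ≠ 1 + ℓ) :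
    D.trOp ℂ Φ = 0 ∧ D.trOp ℂ (D.wOp ℂ Φ) = 0 := by
  classical
  have hwΦ := D.wOp_mem hq hΦ
  have hε3 : ε ^ 3 = ε := by rw [pow_succ, hε2, one_mul]
  set A := D.trOp ℂ (D.wOp ℂ Φ) with hA
  have hAN : A ∈ Lev ℂ N := D.trOp_mem hq hqN hwΦ
  have e1 : A = D.wOp ℂ Φ + ε • Φ := by
    rw [hA, ALData.trOp, LinearMap.add_apply, LinearMap.id_apply, LinearMap.comp_apply,
      D.wOp_wOp hq hΦ, hε]
  have h1 : ((q : ℂ) + 1) • A = A + ε • D.trOp ℂ Φ := by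
    have h := congrArg (D.trOp ℂ) e1
    rwa [D.trOp_of_mem hq hAN, map_add, map_smul, ← hA] at h
  have h2 : tOp ℂ q A = D.trOp ℂ Φ + ε • A := by
    have h := congrArg (fun x => D.trOp ℂ (D.wOp ℂ x)) e1
    simp only [map_add, map_smul] at h
    rwa [D.trOp_wOp_of_mem hq hAN, D.wOp_wOp hq hΦ, ← hA] at h
  have h3 : D.trOp ℂ Φ = (ε * q) • A := by
    have h := congrArg (fun x => ε • x) h1
    simp only [smul_add, smul_smul, ← pow_two, hε2, one_smul] at h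
    rw [show D.trOp ℂ Φ = (ε * ((q : ℂ) + 1)) • A - ε • A by rw [h, add_sub_cancel_left],
      ← sub_smul]
    congr 1
    ring
  suffices hA0 : A = 0 from ⟨by rw [h3, hA0, smul_zero], hA0⟩
  by_contra hne
  let a' : ℕ → ℂ := fun l => if l = q then ε * ((q : ℂ) + 1) else a l
  have hqS : q ∈ S := hS q hq (dvd_mul_left q N)
  obtain ⟨ℓ, hℓ, hℓS, hmod, hℓa⟩ := hneis
  obtain ⟨f, hf, hfa⟩ := exists_eigenform_of_symb (S.erase q)
    (fun l hl h => Finset.mem_erase.mpr ⟨fun e => hqN (e ▸ h), hS l hl (h.mul_right q)⟩) a' hAN hne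
    (fun l hl hlS => by
      rcases eq_or_ne l q with rfl | hlq
      · rw [h2, h3, ← add_smul]
        simp only [a', if_pos]
        congr 1
        ring
      · have hlS' : l ∉ S := fun h => hlS (Finset.mem_erase.mpr ⟨hlq, h⟩)
        have hlN : ¬ l ∣ N * q := fun h => hlS' (hS l hl h)
        rw [hA, D.tOp_trOp hq hl hlN hwΦ, D.tOp_wOp hq hl hlN hΦ, ha l hl hlS', map_smul, map_smul]
        simp only [a', if_neg hlq])
    ⟨ℓ, hℓ, fun h => hℓS (Finset.mem_of_mem_erase h),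
      (Nat.ModEq.of_dvd (dvd_mul_right N q) hmod : _), by
        simp only [a', if_neg fun e : ℓ = q => hℓS (e ▸ hqS)]; exact hℓa⟩
  have hb := Eigenforms.norm_qCoeff_prime_lt hf hq hqN
  rw [hfa q hq (Finset.notMem_erase q S)] at hb
  simp only [a', if_pos] at hb
  have hn : ‖ε‖ = 1 := (pow_eq_one_iff_of_nonneg (norm_nonneg ε) two_ne_zero).mp (by
    rw [← norm_pow, hε2, norm_one])
  rw [norm_mul, hn, one_mul, show (q : ℂ) + 1 = ((q + 1 : ℕ) : ℂ) by push_cast; rfl,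
    Complex.norm_natCast] at hb
  push_cast at hb
  exact lt_irrefl _ hb

section Transfer

variable {K : Type} [Field K] [CharZero K]

theorem mapVal_pullFam {R R' : Type} [CommRing R] [CommRing R'] (φ : R →+* R') {ι : Type}
    [Fintype ι] (A : ι → M2) (Φ : Cusp → Cusp → R) :
    mapVal φ (pullFam R A Φ) = pullFam R' A (mapVal φ Φ) := by
  funext x y
  simp only [mapVal, pullFam_apply, Finset.sum_apply, pull_apply, map_sum]

theorem mapVal_mem_lev {R R' : Type} [CommRing R] [CommRing R'] (φ : R →+* R') {L : ℕ}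
    {Φ : Cusp → Cusp → R} (hΦ : Φ ∈ Lev R L) : mapVal φ Φ ∈ Lev R' L := by
  rw [← symbChar_eq_lev] at hΦ ⊢
  have h := mapVal_mem φ hΦ
  rwa [MulChar.ringHomComp_one] at h

theorem mapVal_eq_zero_iff {R R' : Type} [CommRing R] [CommRing R'] {φ : R →+* R'}
    (hφ : Function.Injective φ) {Φ : Cusp → Cusp → R} : mapVal φ Φ = 0 ↔ Φ = 0 :=
  ⟨fun h => funext fun x => funext fun y => hφ (by
    rw [Pi.zero_apply, Pi.zero_apply, map_zero]
    exact congrFun (congrFun h x) y), fun h => by rw [h, mapVal_zero]⟩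

/-- A symbol and countably many numbers are read in `ℂ`. -/
theorem exists_complex_symbol (c : ℕ → K) (Φ : Cusp → Cusp → K) :
    ∃ (F : Subfield K) (_e : F →+* ℂ) (Φ₀ : Cusp → Cusp → F),
      mapVal F.subtype Φ₀ = Φ ∧ ∀ n, c n ∈ F := by
  have : Countable Cusp := inferInstanceAs (Countable (Option ℚ))
  obtain ⟨F, hF, ⟨e⟩⟩ := exists_subfield_toComplex
    (Set.range c ∪ Set.range fun x : Cusp × Cusp => Φ x.1 x.2)
    ((Set.countable_range _).union (Set.countable_range _))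
  exact ⟨F, e, fun x y => ⟨Φ x y, hF (Or.inr ⟨(x, y), rfl⟩)⟩, rfl, fun n => hF (Or.inl ⟨n, rfl⟩)⟩

variable {F : Subfield K}

omit [CharZero K] in
theorem mem_lev_of_mapVal {L : ℕ} {Φ₀ : Cusp → Cusp → F} (h : mapVal F.subtype Φ₀ ∈ Lev K L) :
    Φ₀ ∈ Lev F L := by
  rw [← symbChar_eq_lev] at h ⊢
  refine ⟨fun x y z => F.subtype.injective ?_, fun γ hγ x y => F.subtype.injective ?_⟩
  · simpa [mapVal] using h.1 x y z
  · have h1 := h.2 γ hγ x y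
    simp only [mapVal, MulChar.one_apply (isUnit_lowerRight hγ), one_mul] at h1 ⊢
    exact h1

omit [CharZero K] in
/-- Eigen relations pass to `ℂ`. -/
theorem eigen_transfer (e : F →+* ℂ) {ι : Type} [Fintype ι] (A : ι → M2) {Φ₀ : Cusp → Cusp → F}
    {x : K} (hx : x ∈ F) (h : pullFam K A (mapVal F.subtype Φ₀) = x • mapVal F.subtype Φ₀) :
    pullFam ℂ A (mapVal e Φ₀) = e ⟨x, hx⟩ • mapVal e Φ₀ := by
  have h' : pullFam F A Φ₀ = (⟨x, hx⟩ : F) • Φ₀ := by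
    rw [← mapVal_pullFam] at h
    funext u v
    exact F.subtype.injective (congrFun (congrFun h u) v)
  rw [← mapVal_pullFam, h', mapVal_smul]

/-- **A newform at `q`.** -/
theorem exists_newform_of_uOp_sq {N q : ℕ} [NeZero N] (hq : q.Prime) (hqN : ¬ q ∣ N)
    {Φ : Cusp → Cusp → K} (hΦ : Φ ∈ Lev K (N * q)) (hne : Φ ≠ 0) (S : Finset ℕ)
    (hS : ∀ l, l.Prime → l ∣ N * q → l ∈ S) (a : ℕ → K) {ε : K}
    (ha : ∀ l, l.Prime → l ∉ S → tOp K l Φ = a l • Φ) (hε : uOp K q Φ = ε • Φ) (hε2 : ε ^ 2 = 1)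
    (hneis : ∃ ℓ, ℓ.Prime ∧ ℓ ∉ S ∧ ℓ % (N * q) = 1 % (N * q) ∧ a ℓ ≠ 1 + ℓ) :
    ∃ (M : ℕ) (g : CuspForm (Gamma0 M) 2) (F : Subfield K) (e : F →+* ℂ),
      M ∣ N * q ∧ q ∣ M ∧ g.IsNewform ∧
      ∀ l, l.Prime → l ∉ S → ∃ h : a l ∈ F, qCoeff g l = e ⟨a l, h⟩ := by
  classical
  obtain ⟨F, e, Φ₀, rfl, hc⟩ := exists_complex_symbol (fun n => if n = 0 then ε else a n) Φ
  have hεF : ε ∈ F := by simpa using hc 0
  have haF : ∀ l, l.Prime → a l ∈ F := fun l hl => by simpa [hl.ne_zero] using hc l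
  have h0 : Φ₀ ≠ 0 := fun h => hne (by rw [h, mapVal_zero])
  have hΨ : mapVal e Φ₀ ∈ Lev ℂ (N * q) := mapVal_mem_lev e (mem_lev_of_mapVal hΦ)
  have hΨ0 : mapVal e Φ₀ ≠ 0 := fun h => h0 ((mapVal_eq_zero_iff e.injective).mp h)
  let a' : ℕ → ℂ := fun l => if h : l.Prime then e ⟨a l, haF l h⟩ else 0
  have ha' : ∀ l, l.Prime → l ∉ S → tOp ℂ l (mapVal e Φ₀) = a' l • mapVal e Φ₀ := fun l hl hlS => by
    simp only [a', dif_pos hl]
    exact eigen_transfer e _ (haF l hl) (ha l hl hlS)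
  have hε' := eigen_transfer e (fun j => heckeFam q (some j)) hεF hε
  have hε2' : e ⟨ε, hεF⟩ ^ 2 = 1 := by
    rw [← map_pow]
    exact (congrArg e (Subtype.ext hε2 : (⟨ε, hεF⟩ : F) ^ 2 = 1)).trans (map_one e)
  obtain ⟨ℓ, hℓ, hℓS, hmod, hℓa⟩ := hneis
  have hneis' : ∃ ℓ, ℓ.Prime ∧ ℓ ∉ S ∧ ℓ % (N * q) = 1 % (N * q) ∧ a' ℓ ≠ 1 + ℓ := by
    refine ⟨ℓ, hℓ, hℓS, hmod, fun h => hℓa ?_⟩
    simp only [a', dif_pos hℓ, ← map_natCast e, ← map_one e, ← map_add] at h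
    simpa using congrArg F.subtype (e.injective h)
  obtain ⟨D⟩ := exists_alData hq hqN
  obtain ⟨h1, h2⟩ := ker_trace_of_uOp_sq hq hqN D hΨ S hS a' ha' hε' hε2' hneis'
  obtain ⟨M, g, hM, hqM, hg, -, hga⟩ :=
    exists_newform_of_ker_trace hq hqN D hΨ hΨ0 h1 h2 S hS a' _ ha' hε' hneis'
  exact ⟨M, g, F, e, hM, hqM, hg, fun l hl hlS =>
    ⟨haF l hl, by rw [hga l hl hlS]; simp only [a', dif_pos hl]⟩⟩

/-- **A newform at `q ^ 2`.** -/
theorem exists_newform_of_sq_ker {N q : ℕ} [NeZero N] (hq : q.Prime) (hqN : ¬ q ∣ N)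
    {Φ : Cusp → Cusp → K} (hΦ : Φ ∈ Lev K (N * q ^ 2)) (hne : Φ ≠ 0)
    (h1 : ∑ j : Fin q, pull K (ofMat !![1, 0; ((N * q * (j : ℕ) : ℕ) : ℤ), 1]) Φ = 0)
    (h2 : uOp K q Φ = 0) (S : Finset ℕ) (hS : ∀ l, l.Prime → l ∣ N * q ^ 2 → l ∈ S) (a : ℕ → K)
    (ha : ∀ l, l.Prime → l ∉ S → tOp K l Φ = a l • Φ)
    (hneis : ∃ ℓ, ℓ.Prime ∧ ℓ ∉ S ∧ ℓ % (N * q ^ 2) = 1 % (N * q ^ 2) ∧ a ℓ ≠ 1 + ℓ) :
    ∃ (M : ℕ) (g : CuspForm (Gamma0 M) 2) (F : Subfield K) (e : F →+* ℂ),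
      M ∣ N * q ^ 2 ∧ q ^ 2 ∣ M ∧ g.IsNewform ∧
      ∀ l, l.Prime → l ∉ S → ∃ h : a l ∈ F, qCoeff g l = e ⟨a l, h⟩ := by
  classical
  obtain ⟨F, e, Φ₀, rfl, hc⟩ := exists_complex_symbol a Φ
  have h0 : Φ₀ ≠ 0 := fun h => hne (by rw [h, mapVal_zero])
  have hΨ : mapVal e Φ₀ ∈ Lev ℂ (N * q ^ 2) := mapVal_mem_lev e (mem_lev_of_mapVal hΦ)
  have hΨ0 : mapVal e Φ₀ ≠ 0 := fun h => h0 ((mapVal_eq_zero_iff e.injective).mp h)
  have hz : ∀ {ι : Type} [Fintype ι] (A : ι → M2), pullFam K A (mapVal F.subtype Φ₀) = 0 →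
      pullFam ℂ A (mapVal e Φ₀) = 0 := fun {ι} _ A h => by
    have := eigen_transfer e A (zero_mem F) (h.trans (zero_smul K _).symm)
    rw [show (⟨0, zero_mem F⟩ : F) = 0 from rfl, map_zero, zero_smul] at this
    exact this
  have h1' := hz (fun j : Fin q => !![1, 0; ((N * q * (j : ℕ) : ℕ) : ℤ), 1])
    (by rw [pullFam_apply]; exact h1)
  rw [pullFam_apply] at h1'
  have h2' : uOp ℂ q (mapVal e Φ₀) = 0 := hz (fun j => heckeFam q (some j)) h2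
  let a' : ℕ → ℂ := fun l => e ⟨a l, hc l⟩
  obtain ⟨ℓ, hℓ, hℓS, hmod, hℓa⟩ := hneis
  obtain ⟨M, g, hM, hqM, hg, hga⟩ := exists_newform_sq_of_ker_trace hq hqN hΨ hΨ0 h1' h2' S hS a'
    (fun l hl hlS => eigen_transfer e _ (hc l) (ha l hl hlS))
    ⟨ℓ, hℓ, hℓS, hmod, fun h => hℓa (by
      simp only [a', ← map_natCast e, ← map_one e, ← map_add] at h
      simpa using congrArg F.subtype (e.injective h))⟩
  exact ⟨M, g, F, e, hM, hqM, hg, fun l hl hlS => ⟨hc l, hga l hl hlS⟩⟩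

/-- **A newform of level dividing `L`.** -/
theorem exists_newform_of_eigensymbol {L : ℕ} [NeZero L] {Φ : Cusp → Cusp → K} (hΦ : Φ ∈ Lev K L)
    (hne : Φ ≠ 0) (S : Finset ℕ) (hS : ∀ l, l.Prime → l ∣ L → l ∈ S) (a : ℕ → K)
    (ha : ∀ l, l.Prime → l ∉ S → tOp K l Φ = a l • Φ)
    (hneis : ∃ ℓ, ℓ.Prime ∧ ℓ ∉ S ∧ ℓ % L = 1 % L ∧ a ℓ ≠ 1 + ℓ) :
    ∃ (M : ℕ) (g : CuspForm (Gamma0 M) 2) (F : Subfield K) (e : F →+* ℂ),
      M ∣ L ∧ g.IsNewform ∧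
      ∀ l, l.Prime → l ∉ S → ∃ h : a l ∈ F, qCoeff g l = e ⟨a l, h⟩ := by
  classical
  obtain ⟨F, e, Φ₀, rfl, hc⟩ := exists_complex_symbol a Φ
  have h0 : Φ₀ ≠ 0 := fun h => hne (by rw [h, mapVal_zero])
  have hΨ : mapVal e Φ₀ ∈ Lev ℂ L := mapVal_mem_lev e (mem_lev_of_mapVal hΦ)
  obtain ⟨ℓ, hℓ, hℓS, hmod, hℓa⟩ := hneis
  obtain ⟨f, hf, hfa⟩ := exists_eigenform_of_symb S hS (fun l => e ⟨a l, hc l⟩) hΨ
    (fun h => h0 ((mapVal_eq_zero_iff e.injective).mp h))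
    (fun l hl hlS => eigen_transfer e _ (hc l) (ha l hl hlS))
    ⟨ℓ, hℓ, hℓS, hmod, fun h => hℓa (by
      simp only [← map_natCast e, ← map_one e, ← map_add] at h
      simpa using congrArg F.subtype (e.injective h))⟩
  obtain ⟨M, -, g, hML, hg, hgf⟩ := Newforms.exists_newform_of_eigenform hf
  exact ⟨M, g, F, e, hML, hg, fun l hl hlS => ⟨hc l, by
    rw [hgf l hl fun h => hlS (hS l hl h), hfa l hl hlS]⟩⟩

end Transfer

end FLTAgent.LevelLowering
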