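import Fermat.Agent.ModularityLifting.Twist

/-!
# The operator at the twisting prime and the trace of a twist

`U_t` kills a twist by a character modulo `t`, and so does the trace from level `M t ^ 2` to
level `M t`.
-/

set_option autoImplicit false

noncomputable section

namespace FLTAgent.LevelLowering

open FLTAgent.LevelRaising FLTAgent.ModularityLifting CongruenceSubgroup Matrix
open scoped MatrixGroups

variable {R : Type} [CommRing R] {M t : ℕ} (χ : DirichletCharacter R t)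
  (δ' : DirichletCharacter R M)

/-- Upper triangular pullbacks with upper left corner `a` are periodic. -/
theorem pull_upper_congr {L : ℕ} {δ : DirichletCharacter R L} {Φ : Cusp → Cusp → R}
    (hΦ : Φ ∈ SymbChar R δ) {a n : ℕ} (ha : a ≠ 0) (hn : n ≠ 0) {v w : ℤ}
    (h : (n : ℤ) ∣ v - w) :
    pull R (ofMat !![(a : ℤ), v; 0, (n : ℤ)]) Φ = pull R (ofMat !![(a : ℤ), w; 0, (n : ℤ)]) Φ := by
  obtain ⟨k, hk⟩ := h
  have hmem : mT ^ k ∈ Gamma0 L := by
    rw [mem_Gamma0_iff_dvd]; simp [ModularGroup.coe_T_zpow]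
  have he : (!![(a : ℤ), v; 0, (n : ℤ)] : M2) =
      ((mT ^ k : SL(2, ℤ)) : M2) * !![(a : ℤ), w; 0, (n : ℤ)] := by
    rw [ModularGroup.coe_T_zpow]
    ext i j
    fin_cases i <;> fin_cases j <;> simp [Matrix.mul_apply, Fin.sum_univ_two]
    linear_combination hk
  rw [he, pull_ofMat_mul (sl_det_ne_zero _) (by simp [Matrix.det_fin_two_of, ha, hn]), ofMat_coe,
    pull_glQ_char hΦ hmem, map_smul]
  simp [ModularGroup.coe_T_zpow]

theorem sum_fin_eq_sum_zmod {A : Type*} [AddCommMonoid A] {n : ℕ} [NeZero n] (f : ZMod n → A) :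
    ∑ u : Fin n, f ((u : ℕ) : ZMod n) = ∑ x, f x :=
  Fintype.sum_bijective (fun u : Fin n => ((u : ℕ) : ZMod n))
    ⟨fun u v h => by
      rw [ZMod.natCast_eq_natCast_iff', Nat.mod_eq_of_lt u.isLt, Nat.mod_eq_of_lt v.isLt] at h
      exact Fin.ext h, fun x => ⟨⟨x.val, x.val_lt⟩, ZMod.natCast_zmod_val x⟩⟩ _ _ fun _ => rfl

variable (ht : t.Prime)
include ht

variable [IsDomain R] (hχ : χ ≠ 1)
include hχ

/-- `U_t` kills a twist by a non-trivial character modulo `t`. -/
theorem uOp_twistOp_self {Φ : Cusp → Cusp → R} (hΦ : Φ ∈ SymbChar R (twistChar χ δ')) :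
    uOp R t (twistOp R χ Φ) = 0 := by
  have : NeZero t := ⟨ht.ne_zero⟩
  set G : ZMod t → Cusp → Cusp → R := fun b => pull R (ofMat !![(1 : ℤ), (b.val : ℤ); 0, (t : ℤ)]) Φ
  have hG : ∀ b : ℕ, pull R (ofMat !![(1 : ℤ), (b : ℤ); 0, (t : ℤ)]) Φ = G b := fun b => by
    have h := pull_upper_congr (a := 1) hΦ one_ne_zero ht.ne_zero
      (v := (b : ℤ)) (w := (((b : ZMod t)).val : ℤ)) (by
        rw [← ZMod.intCast_zmod_eq_zero_iff_dvd]; push_cast; rw [ZMod.natCast_zmod_val, sub_self])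
    rw [Nat.cast_one] at h
    exact h
  rw [uOp, pullFam_apply, twistOp_apply]
  simp only [map_sum, map_smul,
    ← pull_ofMat_mul (det_twMat_ne_zero ht.ne_zero _) (heckeFam_det_ne_zero ht.ne_zero _)]
  rw [Finset.sum_comm]
  have hterm : ∀ u j : Fin t, pull R (ofMat (twMat t ((u : ℕ) : ℤ) * heckeFam t (some j))) Φ =
      G (((j : ℕ) : ZMod t) + (u : ℕ)) := fun u j => by
    have he : twMat t ((u : ℕ) : ℤ) * heckeFam t (some j) =
        (t : ℤ) • !![(1 : ℤ), ((j + u : ℕ) : ℤ); 0, (t : ℤ)] := by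
      ext i k
      fin_cases i <;> fin_cases k <;> simp [twMat, Matrix.mul_apply, Fin.sum_univ_two]
      ring
    rw [he, pull_ofMat_smul (by exact_mod_cast ht.ne_zero)
      (by simp [Matrix.det_fin_two_of, ht.ne_zero]), hG]
    push_cast
    rfl
  simp only [hterm, ← Finset.smul_sum]
  have hS : ∀ u : Fin t, ∑ j : Fin t, G (((j : ℕ) : ZMod t) + (u : ℕ)) = ∑ j, G j := fun u =>
    (sum_fin_eq_sum_zmod fun j => G (j + ((u : ℕ) : ZMod t))).trans
      (Equiv.sum_comp (Equiv.addRight ((u : ℕ) : ZMod t)) G)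
  simp only [hS]
  rw [← Finset.sum_smul,
    sum_fin_eq_sum_zmod (fun u => χ u), MulChar.sum_eq_zero_of_ne_one hχ, zero_smul]

/-- The trace from level `M t ^ 2` to level `M t` kills a twist. -/
theorem sum_pull_lower_twistOp (hM : ¬ t ∣ M) {Φ : Cusp → Cusp → R}
    (hΦ : Φ ∈ SymbChar R (twistChar χ δ')) :
    ∑ j : Fin t, pull R (ofMat !![1, 0; ((M * t * (j : ℕ) : ℕ) : ℤ), 1]) (twistOp R χ Φ) = 0 := by
  classical
  have : NeZero t := ⟨ht.ne_zero⟩
  have : Fact t.Prime := ⟨ht⟩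
  have ht0 : (t : ℤ) ≠ 0 := by exact_mod_cast ht.ne_zero
  have hMu : (M : ZMod t) ≠ 0 := fun h => hM ((ZMod.natCast_eq_zero_iff _ _).mp h)
  set H : ZMod t → Cusp → Cusp → R := fun v => pull R (ofMat (twMat t ((v.val : ℕ) : ℤ))) Φ
  -- the reference singular matrix
  set j₁ : ℕ := (-(M : ZMod t)⁻¹).val with hj₁
  obtain ⟨a₁, ha₁⟩ : (t : ℤ) ∣ 1 + (M * j₁ : ℕ) := by
    rw [← ZMod.intCast_zmod_eq_zero_iff_dvd]
    push_cast
    rw [hj₁, ZMod.natCast_zmod_val, mul_neg, mul_inv_cancel₀ hMu, add_neg_cancel]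
  push_cast at ha₁
  set P₁ : Cusp → Cusp → R :=
    pull R (ofMat (!![a₁, 1; ((M * j₁ : ℕ) : ℤ), (t : ℤ)] * !![(t : ℤ) ^ 2, 0; 0, 1])) Φ
  set F : ZMod t → ZMod t → Cusp → Cusp → R := fun u a =>
    if a = 0 then χ⁻¹ u • P₁ else (χ u * χ⁻¹ a * χ⁻¹ a) • H (u * a⁻¹)
  -- the terms
  have hterm : ∀ u j : ℕ, (u : ZMod t) ≠ 0 →
      χ (u : ZMod t) • pull R (ofMat (twMat t (u : ℤ) * !![1, 0; ((M * t * j : ℕ) : ℤ), 1])) Φ =
        F (u : ZMod t) (1 + (u : ZMod t) * M * j) := by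
    intro u j hu
    set a : ZMod t := 1 + (u : ZMod t) * M * j with hadef
    have hchar : ∀ γ : SL(2, ℤ), γ ∈ Gamma0 (M * t) → ((γ 1 1 : ℤ) : ZMod M) = 1 →
        pull R (glQ γ) Φ = χ ((γ 1 1 : ℤ) : ZMod t) ^ 2 • Φ := fun γ hγ h1 => by
      rw [pull_glQ_char hΦ hγ, twistChar_intCast χ δ' (isUnit_lowerRight hγ), h1, map_one, one_mul]
    by_cases ha : a = 0
    · obtain ⟨a', ha'⟩ : (t : ℤ) ∣ 1 + (u * M * j : ℕ) := by
        rw [← ZMod.intCast_zmod_eq_zero_iff_dvd]
        push_cast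
        exact ha
      push_cast at ha'
      obtain ⟨γ, hγ, hγe⟩ := exists_gamma0_eq (M := M * t)
        (δ := !![a' * t - u * (M * j₁), u * a₁ - a'; t * M * j - t * (M * j₁),
          t * a₁ - M * (j : ℤ)])
        (by
          rw [Matrix.det_fin_two_of]
          linear_combination (-1 : ℤ) * ha' + (-1 + (1 + (u : ℤ) * M * j - t * a')) * ha₁)
        ⟨(j : ℤ) - j₁, by push_cast; simp; ring⟩
      have he : twMat t (u : ℤ) * !![1, 0; ((M * t * j : ℕ) : ℤ), 1] =
          (γ : M2) * (!![a₁, 1; ((M * j₁ : ℕ) : ℤ), (t : ℤ)] * !![(t : ℤ) ^ 2, 0; 0, 1]) := by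
        rw [hγe]
        ext i k
        fin_cases i <;> fin_cases k <;>
          simp [twMat, Matrix.mul_apply, Fin.sum_univ_two]
        · linear_combination (t : ℤ) * ha' + a' * (t : ℤ) ^ 2 * ha₁
        · linear_combination (u : ℤ) * ha₁
        · linear_combination (M : ℤ) * (j : ℤ) * (t : ℤ) ^ 2 * ha₁
        · linear_combination (t : ℤ) * ha₁
      have h11 : γ 1 1 = t * a₁ - M * (j : ℤ) := by rw [hγe]; simp
      have hM1 : ((γ 1 1 : ℤ) : ZMod M) = 1 := by
        rw [h11, show (t : ℤ) * a₁ - M * (j : ℤ) = 1 + (M : ℤ) * ((j₁ : ℤ) - j) by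
          linear_combination -ha₁]
        simp
      have ht1 : ((γ 1 1 : ℤ) : ZMod t) = (u : ZMod t)⁻¹ := by
        refine eq_inv_of_mul_eq_one_left ?_
        rw [h11]
        simp only [Int.cast_sub, Int.cast_mul, Int.cast_natCast, ZMod.natCast_self, zero_mul]
        linear_combination -(hadef ▸ ha : 1 + (u : ZMod t) * M * j = 0)
      rw [he, pull_ofMat_mul (sl_det_ne_zero γ) (by
          rw [Matrix.det_mul, Matrix.det_fin_two_of, Matrix.det_fin_two_of]
          push_cast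
          rw [show a₁ * (t : ℤ) - 1 * ((M : ℤ) * j₁) = 1 by linear_combination -ha₁]
          simp [ht.ne_zero]),
        ofMat_coe, hchar γ hγ hM1, map_smul, smul_smul, ht1]
      simp only [F, if_pos ha]
      congr 1
      rw [pow_two, ← map_mul, ← map_mul, MulChar.inv_apply', ← mul_assoc, mul_inv_cancel₀ hu,
        one_mul]
    · set v : ℕ := ((u : ZMod t) * a⁻¹).val with hv
      obtain ⟨b, hb⟩ : (t : ℤ) ∣ u - (1 + u * M * (j : ℤ)) * v := by
        rw [← ZMod.intCast_zmod_eq_zero_iff_dvd]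
        push_cast
        rw [hv, ZMod.natCast_zmod_val, ← hadef]
        field_simp
        ring
      obtain ⟨γ, hγ, hγe⟩ := exists_gamma0_eq (M := M * t)
        (δ := !![1 + u * M * (j : ℤ), b; M * t * (j : ℤ), 1 - M * (j : ℤ) * v])
        (by rw [Matrix.det_fin_two_of]; linear_combination (M : ℤ) * (j : ℤ) * hb)
        ⟨j, by simp⟩
      have he : twMat t (u : ℤ) * !![1, 0; ((M * t * j : ℕ) : ℤ), 1] =
          (γ : M2) * twMat t (v : ℤ) := by
        rw [hγe]
        ext i k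
        fin_cases i <;> fin_cases k <;>
          simp [twMat, Matrix.mul_apply, Fin.sum_univ_two] <;>
          first | linear_combination hb | ring1
      have h11 : γ 1 1 = 1 - M * (j : ℤ) * v := by rw [hγe]; simp
      have hM1 : ((γ 1 1 : ℤ) : ZMod M) = 1 := by rw [h11]; simp
      have ht1 : ((γ 1 1 : ℤ) : ZMod t) = a⁻¹ := by
        refine eq_inv_of_mul_eq_one_left ?_
        rw [h11]
        push_cast
        rw [hv, ZMod.natCast_zmod_val, sub_mul, one_mul]
        field_simp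
        rw [hadef]
        ring
      rw [he, pull_ofMat_mul (sl_det_ne_zero γ) (det_twMat_ne_zero ht.ne_zero _), ofMat_coe,
        hchar γ hγ hM1, map_smul, smul_smul, ht1]
      simp only [F, if_neg ha]
      congr 1
      rw [MulChar.inv_apply', pow_two, mul_assoc]
  -- the sum over each translation
  have hrow : ∀ u : Fin t, ∑ j : Fin t,
      χ ((u : ℕ) : ZMod t) •
        pull R (ofMat (twMat t ((u : ℕ) : ℤ) * !![1, 0; ((M * t * (j : ℕ) : ℕ) : ℤ), 1])) Φ =
      ∑ a, F ((u : ℕ) : ZMod t) a := by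
    intro u
    rcases eq_or_ne ((u : ℕ) : ZMod t) 0 with h | h
    · have hz : ∀ a, F 0 a = 0 := fun a => by
        simp only [F]; split_ifs <;> simp [MulChar.map_zero]
      simp [h, hz, MulChar.map_zero]
    · refine (Finset.sum_congr rfl fun (j : Fin t) _ => hterm u j h).trans ?_
      rw [sum_fin_eq_sum_zmod (fun j => F ((u : ℕ) : ZMod t)
        (1 + ((u : ℕ) : ZMod t) * (M : ZMod t) * j))]
      exact Fintype.sum_bijective _ (((Equiv.mulLeft₀ (((u : ℕ) : ZMod t) * (M : ZMod t))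
        (mul_ne_zero h hMu)).trans (Equiv.addLeft 1)).bijective) _ _ fun x => rfl
  simp only [twistOp_apply, map_sum, map_smul,
    ← pull_ofMat_mul (det_twMat_ne_zero ht.ne_zero _)
      (show (!![1, 0; ((M * t * (_ : ℕ) : ℕ) : ℤ), 1] : M2).det ≠ 0 by
        simp [Matrix.det_fin_two_of])]
  rw [Finset.sum_comm, Finset.sum_congr rfl fun u _ => hrow u,
    sum_fin_eq_sum_zmod (fun u => ∑ a, F u a), Finset.sum_comm]
  -- sum over `u` for each `a`
  have hχ' : χ⁻¹ ≠ 1 := fun h => hχ (inv_eq_one.mp h)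
  have hcol : ∀ a, ∑ u, F u a = χ⁻¹ a • ∑ v, χ v • H v := by
    intro a
    by_cases ha : a = 0
    · subst ha
      simp only [F, if_true]
      rw [← Finset.sum_smul, MulChar.sum_eq_zero_of_ne_one hχ', zero_smul, MulChar.map_zero,
        zero_smul]
    · simp only [F, if_neg ha, Finset.smul_sum, smul_smul]
      refine (Fintype.sum_bijective _ (Equiv.mulRight₀ a ha).bijective _ _ fun v => ?_).symm
      show (χ⁻¹ a * χ v) • H v = (χ (v * a) * χ⁻¹ a * χ⁻¹ a) • H (v * a * a⁻¹)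
      rw [mul_inv_cancel_right₀ ha, map_mul]
      congr 1
      have : χ a * χ⁻¹ a = 1 := by
        rw [← MulChar.mul_apply, mul_inv_cancel, MulChar.one_apply (isUnit_iff_ne_zero.mpr ha)]
      linear_combination (-(χ⁻¹ a * χ v)) * this
  rw [Finset.sum_congr rfl fun a _ => hcol a, ← Finset.sum_smul,
    MulChar.sum_eq_zero_of_ne_one hχ', zero_smul]

end FLTAgent.LevelLowering
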